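/-
S37-T6 (task 316), owner helper105.  Function fields in one variable over an algebraically closed
field of characteristic zero have principal divisors (of degree zero); finiteness along a
`K`-embedding; inertia degrees are one.
-/
import Mathlib
import Fermat.Agent.S24.FFDeg
import Fermat.Prelude.Def_AlgebraicCurve_Correspondence

set_option autoImplicit false

namespace Fermat.Agent.S37.HeckeInputs

open AlgebraicCurve Fermat.Agent.S24.FF IntermediateField

section General

variable {K F F' : Type*} [Field K] [Field F] [Field F'] [Algebra K F] [Algebra K F']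

theorem degree_eq_sum [IsAlgClosed K] [IsFF1 K F] (D : Divisor K F) :
    Divisor.degree D = D.sum fun _ n => n := by
  induction D using Finsupp.induction with
  | zero => simp
  | single_add v n D hv hn ih =>
    rw [map_add, ih, Divisor.degree_single, deg_eq_one, Finsupp.sum_add_index' (by simp)
      (by simp), Finsupp.sum_single_index rfl]
    simp

/-- node P -/
theorem hasPrincipalDivisors [IsAlgClosed K] [CharZero K] [IsFF1 K F] :
    HasPrincipalDivisors K F := by
  constructor
  intro f _
  classical
  refine ⟨Finsupp.onFinset (finite_ord_ne_zero (K := K) f).toFinset (fun v => v.ord f)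
    (fun v hv => by simpa using hv), fun v => rfl, ?_⟩
  rw [degree_eq_sum, Finsupp.onFinset_sum _ (fun _ => rfl)]
  exact sum_ord_eq_zero f _ (fun v hv => by simpa using hv)

/-- node Fin -/
theorem finiteAlong [IsFF1 K F'] (φ : F →ₐ[K] F') (x : F) (hx : Transcendental K x) :
    FiniteAlong K φ := by
  have hy : Transcendental K (φ x) := by
    intro h
    exact hx ((isAlgebraic_algHom_iff φ φ.toRingHom.injective).mp h)
  have : FiniteDimensional K⟮φ x⟯ F' := IsFF1.finite (φ x) hy
  have hle : K⟮φ x⟯ ≤ φ.fieldRange := by
    rw [adjoin_simple_le_iff]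
    exact ⟨x, rfl⟩
  let _ := algebraAlong φ
  show Module.Finite F F'
  obtain ⟨s, hs⟩ := (Module.Finite.fg_top : (⊤ : Submodule K⟮φ x⟯ F').FG)
  refine ⟨⟨s, ?_⟩⟩
  rw [eq_top_iff]
  intro y hy0
  clear hy0
  have hy : y ∈ Submodule.span K⟮φ x⟯ (s : Set F') := hs ▸ Submodule.mem_top
  induction hy using Submodule.span_induction with
  | mem z hz => exact Submodule.subset_span hz
  | zero => exact zero_mem _
  | add a b _ _ ha hb => exact add_mem ha hb
  | smul c z _ hz =>
    obtain ⟨d, hd⟩ := hle c.2
    have h : c • z = d • z := by
      rw [Algebra.smul_def, Algebra.smul_def]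
      congr 1
      exact hd.symm
    rw [h]
    exact Submodule.smul_mem _ _ hz

variable [Algebra F F'] [IsScalarTower K F F']

/-- node I -/
theorem place_inertiaDeg_eq_one [IsAlgClosed K] [IsFF1 K F] [IsFF1 K F'] [Algebra.IsIntegral F F']
    (w : Place K F') : w.inertiaDeg F = 1 := by
  have h := w.deg_restrict_mul_inertiaDeg (F := F)
  rwa [deg_eq_one, deg_eq_one, one_mul] at h

end General

end Fermat.Agent.S37.HeckeInputs
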