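/-
S37-T6 (task 316), owner helper105.  Local set-up over a place `v` of `F`: the integral closure
`B_v` of `O_v` in a finite extension `F'`, and the dictionary
`{w // w.restrict F = v} ↔ nonzero primes of B_v`.
-/
import Mathlib
import Fermat.Agent.S37.HeckeInputs.Principal

set_option autoImplicit false

namespace Fermat.Agent.S37.HeckeInputs

open AlgebraicCurve Fermat.Agent.S24.FF IntermediateField IsDedekindDomain

section Local

variable {K F : Type*} (F' : Type*) [Field K] [Field F] [Field F'] [Algebra K F] [Algebra K F']
  [Algebra F F'] [IsScalarTower K F F'] (v : Place K F)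

instance isScalarTower_Ov : IsScalarTower K v.toValuationSubring F' :=
  IsScalarTower.of_algebraMap_eq fun a => by
    rw [IsScalarTower.algebraMap_apply K F F']
    rfl

/-- The integral closure of `O_v` in `F'`. -/
abbrev Bv : Subalgebra v.toValuationSubring F' := integralClosure v.toValuationSubring F'

variable {F'} in
/-- A place of `F'` over `v` contains `B_v`. -/
theorem mem_of_restrict_eq [Algebra.IsIntegral F F'] {w : Place K F'} (hw : w.restrict F = v)
    (b : Bv F' v) : algebraMap (Bv F' v) F' b ∈ w.toValuationSubring := by
  have hA : ∀ a : v.toValuationSubring, algebraMap v.toValuationSubring F' a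
      ∈ w.toValuationSubring := by
    intro a
    have h : (a : F) ∈ (w.restrict F).toValuationSubring := hw ▸ a.2
    exact (Place.mem_restrict_iff w).mp h
  let _ : Algebra v.toValuationSubring w.toValuationSubring :=
    ((algebraMap v.toValuationSubring F').codRestrict w.toValuationSubring.toSubring hA).toAlgebra
  have : IsScalarTower v.toValuationSubring w.toValuationSubring F' :=
    IsScalarTower.of_algebraMap_eq fun f => rfl
  have hx : IsIntegral w.toValuationSubring (b : F') := IsIntegral.tower_top b.2
  obtain ⟨y, hy⟩ := IsIntegrallyClosed.isIntegral_iff.mp hx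
  show (b : F') ∈ w.toValuationSubring
  exact hy ▸ y.2

variable {F'} in
/-- A place of `F'` containing `B_v` lies over `v`. -/
theorem restrict_eq_of_mem [Algebra.IsIntegral F F'] {w : Place K F'}
    (hw : ∀ b : Bv F' v, algebraMap (Bv F' v) F' b ∈ w.toValuationSubring) :
    w.restrict F = v := by
  apply Place.ext
  symm
  refine ValuationSubring.eq_of_le_of_ne_top _ ?_ (w.restrict F).ne_top'
  intro a ha
  rw [Place.mem_restrict_iff]
  exact hw (algebraMap v.toValuationSubring (Bv F' v) ⟨a, ha⟩)

variable {F'} in
theorem restrict_eq_iff [Algebra.IsIntegral F F'] {w : Place K F'} :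
    w.restrict F = v ↔ ∀ b : Bv F' v, algebraMap (Bv F' v) F' b ∈ w.toValuationSubring :=
  ⟨fun h => mem_of_restrict_eq v h, fun h => restrict_eq_of_mem v h⟩

variable [CharZero K] [Module.Finite F F']

omit [Algebra K F'] [IsScalarTower K F F'] in
include K in
variable (K F) in
theorem isSeparable_of_charZero : Algebra.IsSeparable F F' := by
  have : CharZero F := charZero_of_injective_algebraMap (algebraMap K F).injective
  infer_instance

instance isDedekindDomain_Bv : IsDedekindDomain (Bv F' v) :=
  have := isSeparable_of_charZero K F F'
  integralClosure.isDedekindDomain v.toValuationSubring F F'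

instance isFractionRing_Bv : IsFractionRing (Bv F' v) F' :=
  integralClosure.isFractionRing_of_finite_extension F F'

instance finite_Bv : Module.Finite v.toValuationSubring (Bv F' v) :=
  have := isSeparable_of_charZero K F F'
  IsIntegralClosure.finite v.toValuationSubring F F' _

end Local

end Fermat.Agent.S37.HeckeInputs
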