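/-
S37-T6 (task 316), owner helper105.  The fundamental identity `∑_{w ∣ v} e(w) = [F' : F]` for a
finite extension of function fields in one variable over an algebraically closed field of
characteristic zero.
-/
import Mathlib
import Fermat.Agent.S37.HeckeInputs.Local

set_option autoImplicit false

namespace Fermat.Agent.S37.HeckeInputs

open AlgebraicCurve Fermat.Agent.S24.FF IntermediateField IsDedekindDomain

variable {K F F' : Type*} [Field K] [Field F] [Field F'] [Algebra K F] [Algebra K F']
  [Algebra F F'] [IsScalarTower K F F']

theorem sum_ramificationIndex [IsAlgClosed K] [CharZero K] [IsFF1 K F']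
    [Module.Finite F F'] [HasPrincipalDivisors K F'] (v : Place K F) :
    ∑ w ∈ v.fiber F', (w.ramificationIndex F : ℤ) = (Module.finrank F F' : ℤ) := by
  obtain ⟨π, hπ⟩ := IsDiscreteValuationRing.exists_irreducible v.toValuationSubring
  have hmax : (Ideal.span {π}).IsMaximal := by
    rw [← hπ.maximalIdeal_eq]
    infer_instance
  obtain ⟨s, hs, hsum⟩ := exists_finset_ord_pos_aux (K := K) (F := F') (Bv F' v) F π hπ.ne_zero hmax
  have hord : ∀ w : Place K F', w.restrict F = v →
      w.ord (algebraMap v.toValuationSubring F' π) = (w.ramificationIndex F : ℤ) := by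
    intro w hw
    have h := w.ord_restrict (F := F) (π : F)
    rw [hw, v.ord_coe_irreducible hπ, mul_one] at h
    exact h
  have hfib : v.fiber F' = s := by
    ext w
    rw [Place.mem_fiber, hs]
    constructor
    · intro hw
      refine ⟨mem_of_restrict_eq v hw, ?_⟩
      rw [hord w hw]
      exact_mod_cast w.ramificationIndex_pos (F := F)
    · intro hw
      exact restrict_eq_of_mem v hw.1
  rw [← hsum, hfib]
  refine Finset.sum_congr rfl fun w hw => ?_
  rw [← hfib, Place.mem_fiber] at hw
  exact (hord w hw).symm

/-- node FI -/
theorem fundamentalIdentity [IsAlgClosed K] [CharZero K] [IsFF1 K F] [IsFF1 K F']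
    [Module.Finite F F'] [HasPrincipalDivisors K F'] : FundamentalIdentity K F F' := by
  constructor
  intro v
  rw [deg_eq_one, ← sum_ramificationIndex v]
  simp only [Nat.cast_one, mul_one]
  refine Finset.sum_congr rfl fun w _ => ?_
  rw [deg_eq_one]
  simp

end Fermat.Agent.S37.HeckeInputs
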