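/-
S37-T6 (task 316), owner helper105.  The norm formula `ord_v (N f) = ∑_{w ∣ v} ord_w f` for a
finite extension of function fields in one variable over an algebraically closed field of
characteristic zero.
-/
import Mathlib
import Fermat.Agent.S37.HeckeInputs.Local

set_option autoImplicit false

namespace Fermat.Agent.S37.HeckeInputs

open AlgebraicCurve Fermat.Agent.S24.FF IntermediateField IsDedekindDomain WithZero

variable {K F F' : Type*} [Field K] [Field F] [Field F'] [Algebra K F] [Algebra K F']
  [Algebra F F'] [IsScalarTower K F F']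

theorem ord_eq_of_span_eq_pow (v : Place K F) (x : v.toValuationSubring) (m : ℕ)
    (h : Ideal.span {x} = (IsLocalRing.maximalIdeal v.toValuationSubring) ^ m) :
    v.ord (x : F) = m := by
  obtain ⟨π, hπ⟩ := IsDiscreteValuationRing.exists_irreducible v.toValuationSubring
  rw [hπ.maximalIdeal_eq, Ideal.span_singleton_pow, Ideal.span_singleton_eq_span_singleton] at h
  obtain ⟨u, hu⟩ := h.symm
  have h1 : (x : F) = ((u : v.toValuationSubring) : F) * ((π : F) ^ (m : ℤ)) := by
    rw [← hu, zpow_natCast]
    push_cast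
    ring
  rw [h1, v.ord_unit_smul_zpow u hπ]

variable [CharZero K] [Module.Finite F F'] (v : Place K F)

omit [Algebra K F'] [IsScalarTower K F F'] in
theorem liesOver_maximalIdeal (P : HeightOneSpectrum (Bv F' v)) :
    P.asIdeal.LiesOver (IsLocalRing.maximalIdeal v.toValuationSubring) := by
  constructor
  have := P.isMaximal
  have h : (P.asIdeal.under v.toValuationSubring).IsMaximal :=
    Ideal.isMaximal_comap_of_isIntegral_of_isMaximal P.asIdeal
  exact (IsLocalRing.eq_maximalIdeal h).symm

theorem relNorm_prime [IsAlgClosed K] [IsFF1 K F'] (P : HeightOneSpectrum (Bv F' v)) :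
    Ideal.relNorm v.toValuationSubring P.asIdeal
      = IsLocalRing.maximalIdeal v.toValuationSubring := by
  have := liesOver_maximalIdeal v P
  have := P.isMaximal
  have : CharZero v.toValuationSubring :=
    charZero_of_injective_algebraMap (algebraMap K v.toValuationSubring).injective
  rw [Ideal.relNorm_eq_pow_of_isMaximal P.asIdeal (IsLocalRing.maximalIdeal v.toValuationSubring),
    ← Ideal.inertiaDeg'_eq_inertiaDeg (IsLocalRing.maximalIdeal v.toValuationSubring) P.asIdeal,
    inertiaDeg_eq_one K F' (IsLocalRing.maximalIdeal v.toValuationSubring) P, pow_one]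

/-- places over `v` ↔ nonzero primes of `B_v` -/
noncomputable def fiberEquiv [HasPrincipalDivisors K F'] :
    {w : Place K F' // w ∈ v.fiber F'} ≃ HeightOneSpectrum (Bv F' v) :=
  (Equiv.subtypeEquivRight fun w => by rw [Place.mem_fiber, restrict_eq_iff]).trans
    (placeEquiv K F' (Bv F' v))

theorem ofHeightOneSpectrum_fiberEquiv [HasPrincipalDivisors K F']
    (w : {w : Place K F' // w ∈ v.fiber F'}) :
    Place.ofHeightOneSpectrum (K := K) (fiberEquiv v w) = w.1 :=
  ofHeightOneSpectrum_primeOfPlace _ _

theorem ord_ofHeightOneSpectrum_algebraMap (P : HeightOneSpectrum (Bv F' v)) (b : Bv F' v)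
    (hb : b ≠ 0) :
    (Place.ofHeightOneSpectrum (K := K) P).ord (algebraMap (Bv F' v) F' b)
      = ((Associates.mk P.asIdeal).count (Associates.mk (Ideal.span {b})).factors : ℤ) := by
  rw [ord_ofHeightOneSpectrum, HeightOneSpectrum.valuation_of_algebraMap,
    HeightOneSpectrum.intValuation_if_neg _ hb, log_exp, neg_neg]

theorem ord_norm_algebraMap [IsAlgClosed K] [IsFF1 K F'] [HasPrincipalDivisors K F']
    (b : Bv F' v) (hb : b ≠ 0) :
    v.ord (Algebra.norm F (algebraMap (Bv F' v) F' b))
      = ∑ w ∈ v.fiber F', w.ord (algebraMap (Bv F' v) F' b) := by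
  classical
  let _ : Fintype (HeightOneSpectrum (Bv F' v)) := Fintype.ofEquiv _ (fiberEquiv v)
  have hI : Ideal.span {b} ≠ 0 := by
    rw [Ne, Ideal.zero_eq_bot, Ideal.span_singleton_eq_bot]
    exact hb
  have h1 : Ideal.span {Algebra.intNorm v.toValuationSubring (Bv F' v) b}
      = (IsLocalRing.maximalIdeal v.toValuationSubring) ^
        (∑ P : HeightOneSpectrum (Bv F' v),
          (Associates.mk P.asIdeal).count (Associates.mk (Ideal.span {b})).factors) := by
    rw [← Ideal.relNorm_singleton]
    conv_lhs => rw [← Ideal.finprod_heightOneSpectrum_factorization hI]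
    rw [finprod_eq_prod_of_fintype, map_prod, ← Finset.prod_pow_eq_pow_sum]
    refine Finset.prod_congr rfl fun P _ => ?_
    rw [HeightOneSpectrum.maxPowDividing, map_pow, relNorm_prime]
  have h2 := ord_eq_of_span_eq_pow v _ _ h1
  have h3 : ((Algebra.intNorm v.toValuationSubring (Bv F' v) b : v.toValuationSubring) : F)
      = Algebra.norm F (algebraMap (Bv F' v) F' b) :=
    Algebra.algebraMap_intNorm (A := v.toValuationSubring) (K := F) (L := F') (B := Bv F' v) b
  rw [← h3, h2, ← Finset.sum_coe_sort (v.fiber F'), ← (fiberEquiv v).sum_comp]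
  push_cast
  refine Finset.sum_congr rfl fun w _ => ?_
  rw [← ord_ofHeightOneSpectrum_algebraMap v _ b hb, ofHeightOneSpectrum_fiberEquiv]

theorem ord_norm [IsAlgClosed K] [IsFF1 K F'] [HasPrincipalDivisors K F'] (f : F') (hf : f ≠ 0) :
    v.ord (Algebra.norm F f) = ∑ w ∈ v.fiber F', w.ord f := by
  obtain ⟨a, s, hs, rfl⟩ := IsFractionRing.div_surjective (A := Bv F' v) f
  have hs0 : s ≠ 0 := nonZeroDivisors.ne_zero hs
  have ha0 : a ≠ 0 := by
    rintro rfl
    simp at hf
  have ha' : algebraMap (Bv F' v) F' a ≠ 0 := by simpa using ha0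
  have hs' : algebraMap (Bv F' v) F' s ≠ 0 := by simpa using hs0
  rw [div_eq_mul_inv, map_mul, Algebra.norm_inv,
    v.ord_mul (Algebra.norm_ne_zero_iff.mpr ha') (inv_ne_zero (Algebra.norm_ne_zero_iff.mpr hs')),
    v.ord_inv, ord_norm_algebraMap v a ha0, ord_norm_algebraMap v s hs0, ← sub_eq_add_neg,
    ← Finset.sum_sub_distrib]
  refine Finset.sum_congr rfl fun w _ => ?_
  rw [w.ord_mul ha' (inv_ne_zero hs'), w.ord_inv, sub_eq_add_neg]

/-- node NF -/
theorem pushforwardNormFormula [IsAlgClosed K] [IsFF1 K F] [IsFF1 K F'] :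
    Divisor.PushforwardNormFormula K F F' := by
  classical
  have : HasPrincipalDivisors K F' := hasPrincipalDivisors
  intro f hf D hD v
  rw [ord_norm v f hf, Divisor.pushforward_apply, ← Finset.sum_filter]
  have hsub : D.support.filter (fun w => w.restrict F = v) ⊆ v.fiber F' := by
    intro w hw
    rw [Place.mem_fiber]
    exact (Finset.mem_filter.mp hw).2
  rw [← Finset.sum_subset hsub]
  · refine Finset.sum_congr rfl fun w _ => ?_
    rw [place_inertiaDeg_eq_one, hD]
    simp
  · intro w hw hw'
    rw [Place.mem_fiber] at hw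
    rw [Finset.mem_filter, not_and_or] at hw'
    rcases hw' with h | h
    · rw [← hD]
      simpa using h
    · exact absurd hw h

end Fermat.Agent.S37.HeckeInputs
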