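/-
S37-T6 (task 316), owner helper105.  `HeckeInputsAlong (AlgebraicClosure ℚ) N ℓ` holds for all
`N, ℓ > 0`, hence the Hecke operators on `JZero N` are the honest correspondences
`(α)_* ∘ (β)^*`; unfolding lemmas.
-/
import Mathlib
import Fermat.Agent.S37.HeckeInputs.FundId
import Fermat.Agent.S37.HeckeInputs.Norm
import Fermat.Agent.S24.Export.Ramification
import Fermat.Prelude.Def_ModularCurve_HeckeModule

set_option autoImplicit false

namespace Fermat.Agent.S37.HeckeInputs

open AlgebraicCurve Fermat.Agent.S24.FF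

section Along

variable {K F F' : Type*} [Field K] [Field F] [Field F'] [Algebra K F] [Algebra K F']

theorem isIntegral_of_finiteAlong (φ : F →ₐ[K] F') (h : FiniteAlong K φ) :
    φ.toRingHom.IsIntegral := by
  let _ := algebraAlong φ
  have : Module.Finite F F' := h
  exact (Algebra.IsIntegral.of_finite F F').isIntegral

variable [IsAlgClosed K] [CharZero K] [IsFF1 K F] [IsFF1 K F']

theorem fundamentalIdentityAlong (φ : F →ₐ[K] F') (hfin : FiniteAlong K φ)
    (hφ : φ.toRingHom.IsIntegral) [HasPrincipalDivisors K F'] :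
    FundamentalIdentityAlong K φ hφ := by
  let _ := algebraAlong φ
  have := isScalarTower_along φ
  have : Module.Finite F F' := hfin
  exact fundamentalIdentity

theorem normFormulaAlong (φ : F →ₐ[K] F') (hfin : FiniteAlong K φ) :
    NormFormulaAlong K φ hfin := by
  let _ := algebraAlong φ
  have := isScalarTower_along φ
  have : Module.Finite F F' := hfin
  exact pushforwardNormFormula

omit [CharZero K] in
theorem inertiaDegAlong_eq_one (φ : F →ₐ[K] F') (hφ : φ.toRingHom.IsIntegral) (w : Place K F') :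
    w.inertiaDegAlong φ hφ = 1 := by
  let _ := algebraAlong φ
  have := isScalarTower_along φ
  have := isIntegral_along φ hφ
  exact place_inertiaDeg_eq_one w

omit [IsAlgClosed K] [CharZero K] [IsFF1 K F] [IsFF1 K F'] in
/-- The norm `F' → F` along an embedding `φ : F → F'`. -/
noncomputable def normAlong (φ : F →ₐ[K] F') : F' →* F :=
  letI := algebraAlong φ
  Algebra.norm F

omit [CharZero K] in
/-- Explicit form of a correspondence on a single place. -/
theorem correspondence_single [HasPrincipalDivisors K F'] (φ ψ : F →ₐ[K] F')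
    (hφ : φ.toRingHom.IsIntegral) (hψ : ψ.toRingHom.IsIntegral) (v : Place K F) (n : ℤ) :
    Divisor.correspondence φ ψ hφ hψ (Finsupp.single v n) =
      ∑ w ∈ Place.fiberAlong φ hφ v,
        Finsupp.single (w.restrictAlong ψ hψ) (n * w.ramificationIndexAlong φ) := by
  rw [Divisor.correspondence_apply, Divisor.pullbackAlong_single, map_sum]
  refine Finset.sum_congr rfl fun w _ => ?_
  rw [Divisor.pushforwardAlong_single, inertiaDegAlong_eq_one]
  simp

/-- A correspondence maps `div y` to `div (N_ψ (φ y))`. -/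
theorem correspondence_principal [HasPrincipalDivisors K F'] (φ ψ : F →ₐ[K] F')
    (hφ : φ.toRingHom.IsIntegral) (hψ : ψ.toRingHom.IsIntegral) (hfin : FiniteAlong K ψ)
    {y : F} (hy : y ≠ 0) {D : Divisor K F} (hD : ∀ v, D v = v.ord y) (v : Place K F) :
    Divisor.correspondence φ ψ hφ hψ D v = v.ord (normAlong ψ (φ y)) := by
  have h1 : ∀ w : Place K F', Divisor.pullbackAlong φ hφ D w = w.ord (φ y) := by
    intro w
    rw [Divisor.pullbackAlong_apply, hD, ← Place.ord_restrictAlong]
  have h2 : φ y ≠ 0 := by simpa using hy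
  exact normFormulaAlong ψ hfin (φ y) h2 _ h1 v

end Along

section Modular

open ModularCurve Fermat.Agent.S24

instance isFF1_FN (M : ℕ) [NeZero M] : IsFF1 Kbar (FN M) := Export.isFF1 M

instance hasPrincipalDivisors_FN (M : ℕ) [NeZero M] : HasPrincipalDivisors Kbar (FN M) :=
  hasPrincipalDivisors

variable (N ℓ : ℕ) [NeZero N] [NeZero ℓ]

theorem alpha_finite : FiniteAlong Kbar (heckeAlphaBar Kbar N ℓ) :=
  finiteAlong (heckeAlphaBar Kbar N ℓ) (jF N) (Formal.transcendental_jF N)

theorem beta_finite : FiniteAlong Kbar (heckeBetaBar Kbar N ℓ) :=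
  finiteAlong (heckeBetaBar Kbar N ℓ) (jF N) (Formal.transcendental_jF N)

theorem alpha_integral : HeckeAlphaBarIntegral Kbar N ℓ :=
  isIntegral_of_finiteAlong _ (alpha_finite N ℓ)

theorem beta_integral : HeckeBetaBarIntegral Kbar N ℓ :=
  isIntegral_of_finiteAlong _ (beta_finite N ℓ)

theorem beta_fundamentalIdentity :
    FundamentalIdentityAlong Kbar (heckeBetaBar Kbar N ℓ) (beta_integral N ℓ) :=
  fundamentalIdentityAlong _ (beta_finite N ℓ) _

theorem alpha_fundamentalIdentity :
    FundamentalIdentityAlong Kbar (heckeAlphaBar Kbar N ℓ) (alpha_integral N ℓ) :=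
  fundamentalIdentityAlong _ (alpha_finite N ℓ) _

theorem alpha_normFormula :
    NormFormulaAlong Kbar (heckeAlphaBar Kbar N ℓ) (alpha_finite N ℓ) :=
  normFormulaAlong _ _

theorem beta_normFormula :
    NormFormulaAlong Kbar (heckeBetaBar Kbar N ℓ) (beta_finite N ℓ) :=
  normFormulaAlong _ _

/-- **S37-T6.** -/
theorem heckeInputsAlong : HeckeInputsAlong (AlgebraicClosure ℚ) N ℓ :=
  heckeInputsAlong_intro (alpha_integral N ℓ) (beta_integral N ℓ)
    (beta_fundamentalIdentity N ℓ) (alpha_finite N ℓ) (alpha_normFormula N ℓ)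

/-- The Hecke operator is the honest correspondence. -/
theorem heckeOperatorAlong_eq_heckePic0Bar :
    heckeOperatorAlong (AlgebraicClosure ℚ) N ℓ =
      heckePic0Bar (alpha_integral N ℓ) (beta_integral N ℓ) (beta_fundamentalIdentity N ℓ)
        (alpha_finite N ℓ) (alpha_normFormula N ℓ) :=
  heckeOperatorAlong_eq _ _ _ _ _

/-- The Hecke correspondence on divisors: `(α)_* ∘ (β)^*`. -/
noncomputable abbrev heckeDiv : Divisor Kbar (FN N) →+ Divisor Kbar (FN N) :=
  heckeDivBar (alpha_integral N ℓ) (beta_integral N ℓ)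

theorem heckeDiv_mem_degZero {D : Divisor Kbar (FN N)}
    (hD : D ∈ Divisor.degZero (K := Kbar) (F := FN N)) :
    heckeDiv N ℓ D ∈ Divisor.degZero (K := Kbar) (F := FN N) :=
  Divisor.correspondence_mem_degZero _ _ _ _ (beta_fundamentalIdentity N ℓ) hD

/-- Action of the Hecke operator on the class of a degree zero divisor. -/
theorem heckeOperatorAlong_mk (D : Divisor.degZero (K := Kbar) (F := FN N)) :
    heckeOperatorAlong (AlgebraicClosure ℚ) N ℓ (Pic0.mk D) =
      Pic0.mk ⟨heckeDiv N ℓ D, heckeDiv_mem_degZero N ℓ D.2⟩ := by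
  rw [heckeOperatorAlong_eq_heckePic0Bar]
  rfl

theorem heckeDiv_single (v : Place Kbar (FN N)) (n : ℤ) :
    heckeDiv N ℓ (Finsupp.single v n) =
      ∑ w ∈ Place.fiberAlong (heckeBetaBar Kbar N ℓ) (beta_integral N ℓ) v,
        Finsupp.single (w.restrictAlong (heckeAlphaBar Kbar N ℓ) (alpha_integral N ℓ))
          (n * w.ramificationIndexAlong (heckeBetaBar Kbar N ℓ)) :=
  correspondence_single _ _ _ _ v n

/-- `T_ℓ (div y) = div (N_α (β y))`. -/
theorem heckeDiv_principal {y : FN N} (hy : y ≠ 0) {D : Divisor Kbar (FN N)}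
    (hD : ∀ v, D v = v.ord y) (v : Place Kbar (FN N)) :
    heckeDiv N ℓ D v = v.ord (normAlong (heckeAlphaBar Kbar N ℓ) (heckeBetaBar Kbar N ℓ y)) :=
  correspondence_principal _ _ _ _ (alpha_finite N ℓ) hy hD v

theorem heckeOperatorBar_mk (ℓ : Nat.Primes) (D : Divisor.degZero (K := Kbar) (F := FN N)) :
    haveI : NeZero (ℓ : ℕ) := ⟨ℓ.2.ne_zero⟩
    heckeOperatorBar N ℓ (Pic0.mk D) =
      Pic0.mk ⟨heckeDiv N ℓ D, heckeDiv_mem_degZero N ℓ D.2⟩ := by
  have : NeZero (ℓ : ℕ) := ⟨ℓ.2.ne_zero⟩
  rw [heckeOperatorBar_apply]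
  exact heckeOperatorAlong_mk N ℓ D

end Modular

end Fermat.Agent.S37.HeckeInputs
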